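/-
P-DIM (S20): basic definitions for the dimension formula project.
Everything is phrased for plain functions `ℍ → ℂ`; no dependent types of modular forms.
-/
import Mathlib.NumberTheory.ModularForms.LevelOne.GradedRing
import Mathlib.NumberTheory.ModularForms.CongruenceSubgroups

set_option autoImplicit false

namespace Fermat.Agent.H19

open UpperHalfPlane ModularForm CongruenceSubgroup
open scoped MatrixGroups Manifold

/-- `IsMF N k φ`: the function `φ` is a modular form of weight `k` on `Γ₀(N)`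
(holomorphic, slash-invariant, and bounded at every cusp). -/
structure IsMF (N : ℕ) (k : ℤ) (φ : ℍ → ℂ) : Prop where
  holo : MDiff φ
  inv : ∀ γ ∈ Gamma0 N, φ ∣[k] γ = φ
  bdd : ∀ g : SL(2, ℤ), IsBoundedAtImInfty (φ ∣[k] g)

/-- `IsCF N k φ`: the function `φ` is a cusp form of weight `k` on `Γ₀(N)`. -/
structure IsCF (N : ℕ) (k : ℤ) (φ : ℍ → ℂ) : Prop where
  holo : MDiff φ
  inv : ∀ γ ∈ Gamma0 N, φ ∣[k] γ = φ
  zero : ∀ g : SL(2, ℤ), IsZeroAtImInfty (φ ∣[k] g)

/-- The coset space `SL(2,ℤ) / Γ₀(N)` (left cosets), with `SL(2,ℤ)` acting by left multiplication. -/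
abbrev Q (N : ℕ) : Type := SL(2, ℤ) ⧸ Gamma0 N

noncomputable instance instFintypeQ (N : ℕ) [NeZero N] : Fintype (Q N) := Fintype.ofFinite _

noncomputable instance instDecidableEqQ (N : ℕ) : DecidableEq (Q N) := Classical.decEq _

/-- The translate of `φ` attached to the coset `q = g Γ₀(N)`, namely `φ ∣[k] g⁻¹`
(well defined when `φ` is `Γ₀(N)`-invariant of weight `k`). -/
noncomputable def cosetFun (N : ℕ) (k : ℤ) (φ : ℍ → ℂ) (q : Q N) : ℍ → ℂ :=
  φ ∣[k] (Quotient.out q)⁻¹

/-- The `r`-th twisted average of an `N`-periodic function, normalised to be `1`-periodic: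
`e^{-2πi r z / N} · (1/N) Σ_{a < N} e^{-2πi r a / N} ψ(z + a)`. -/
noncomputable def fourierPart (N : ℕ) (r : ℕ) (ψ : ℍ → ℂ) : ℍ → ℂ := fun z =>
  Complex.exp (-2 * Real.pi * Complex.I * r * z / N) *
    ((1 / (N : ℂ)) * ∑ a ∈ Finset.range N,
      Complex.exp (-2 * Real.pi * Complex.I * r * a / N) * ψ ((a : ℝ) +ᵥ z))

/-- The limit at `i∞` of the `r`-th twisted average (the `r`-th `q_N`-expansion coefficient). -/
noncomputable def fourierLim (N : ℕ) (r : ℕ) (ψ : ℍ → ℂ) : ℂ :=
  Filter.limUnder atImInfty (fourierPart N r ψ)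

/-- The leading vector at `∞` of a form: for each coset `q`, the sum of the first `N`
coefficients of the `q_N`-expansion of `cosetFun N k φ q`. -/
noncomputable def ell (N : ℕ) (k : ℤ) (φ : ℍ → ℂ) : Q N → ℂ := fun q =>
  ∑ r ∈ Finset.range N, fourierLim N r (cosetFun N k φ q)

end Fermat.Agent.H19
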