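/-
P-DIM (S20): free generating systems of `M_*(Γ₀(N))` over `M_*(SL₂(ℤ))` and the matrix `Φ`.
Definitions only.
-/
import Fermat.Agent.H19.Defs

set_option autoImplicit false

namespace Fermat.Agent.H19

open UpperHalfPlane ModularForm CongruenceSubgroup
open scoped MatrixGroups Manifold

/-- `IsGens N J k f`: the forms `f j` (of weight `k j`, on `Γ₀(N)`) are a free homogeneous
generating system of the graded module `M_*(Γ₀(N))` over the graded ring `M_*(SL₂(ℤ))`. -/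
structure IsGens (N : ℕ) (J : Type) (k : J → ℤ) (f : J → ℍ → ℂ) : Prop where
  nonneg : ∀ j, 0 ≤ k j
  isMF : ∀ j, IsMF N (k j) (f j)
  gen : ∀ (K : ℤ) (φ : ℍ → ℂ), IsMF N K φ → ∃ (s : Finset J) (r : J → ℍ → ℂ),
    (∀ j ∈ s, IsMF 1 (K - k j) (r j)) ∧ φ = ∑ j ∈ s, r j * f j
  uniq : ∀ (K : ℤ) (s : Finset J) (r : J → ℍ → ℂ), (∀ j ∈ s, IsMF 1 (K - k j) (r j)) →
    ∑ j ∈ s, r j * f j = 0 → ∀ j ∈ s, r j = 0

/-- The matrix `Φ(z) = (f_{j,q}(z))`, rows indexed by cosets `q`, columns by generators `j`. -/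
noncomputable def Phi (N : ℕ) {J : Type} (k : J → ℤ) (f : J → ℍ → ℂ) (z : ℍ) :
    Matrix (Q N) J ℂ :=
  Matrix.of fun q j => cosetFun N (k j) (f j) q z

end Fermat.Agent.H19
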