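/-
P-DIM (S20): basic facts on coset functions (DIM-VV).
-/
import Fermat.Agent.H19.Gens

set_option autoImplicit false

namespace Fermat.Agent.H19

open UpperHalfPlane ModularForm CongruenceSubgroup Filter Topology
open scoped MatrixGroups Manifold

variable {N : ℕ} {k m : ℤ} {φ ψ g : ℍ → ℂ}

theorem cosetFun_mk (hφ : ∀ γ ∈ Gamma0 N, φ ∣[k] γ = φ) (g : SL(2, ℤ)) :
    cosetFun N k φ (g : Q N) = φ ∣[k] g⁻¹ := by
  unfold cosetFun
  obtain ⟨γ, hγ⟩ := QuotientGroup.mk_out_eq_mul (Gamma0 N) g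
  have h1 : (Quotient.out (g : Q N)) = g * (γ : SL(2, ℤ)) := hγ
  rw [h1, mul_inv_rev, SlashAction.slash_mul, hφ _ (inv_mem γ.2)]

theorem cosetFun_slash (hφ : ∀ γ ∈ Gamma0 N, φ ∣[k] γ = φ) (q : Q N) (h : SL(2, ℤ)) :
    (cosetFun N k φ q) ∣[k] h = cosetFun N k φ (h⁻¹ • q) := by
  induction q using QuotientGroup.induction_on with
  | H g =>
    have : (h⁻¹ • (g : Q N)) = ((h⁻¹ * g : SL(2, ℤ)) : Q N) := rfl
    rw [this, cosetFun_mk hφ, cosetFun_mk hφ, ← SlashAction.slash_mul, mul_inv_rev, inv_inv]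

theorem cosetFun_one (hφ : ∀ γ ∈ Gamma0 N, φ ∣[k] γ = φ) :
    cosetFun N k φ ((1 : SL(2, ℤ)) : Q N) = φ := by
  rw [cosetFun_mk hφ, inv_one, SlashAction.slash_one]

theorem cosetFun_add (q : Q N) :
    cosetFun N k (φ + ψ) q = cosetFun N k φ q + cosetFun N k ψ q := by
  unfold cosetFun
  exact SlashAction.add_slash _ _ _ _

theorem cosetFun_zero (q : Q N) : cosetFun N k (0 : ℍ → ℂ) q = 0 := by
  unfold cosetFun
  exact SlashAction.zero_slash _ _

theorem cosetFun_smul (c : ℂ) (q : Q N) : cosetFun N k (c • φ) q = c • cosetFun N k φ q := by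
  unfold cosetFun
  exact SL_smul_slash _ _ _ _

theorem cosetFun_sum {ι : Type*} (s : Finset ι) (F : ι → ℍ → ℂ) (q : Q N) :
    cosetFun N k (∑ i ∈ s, F i) q = ∑ i ∈ s, cosetFun N k (F i) q := by
  unfold cosetFun
  exact SlashAction.sum_slash _ _

theorem cosetFun_mul (hg : IsMF 1 m g) (q : Q N) :
    cosetFun N (m + k) (g * φ) q = g * cosetFun N k φ q := by
  unfold cosetFun
  rw [mul_slash_SL2, hg.inv _ (Gamma0_mem.mpr (Subsingleton.elim _ _))]

theorem cosetFun_apply_smul (hφ : ∀ γ ∈ Gamma0 N, φ ∣[k] γ = φ) (q : Q N) (h : SL(2, ℤ))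
    (z : ℍ) :
    cosetFun N k φ q (h • z) = (denom h z) ^ k * cosetFun N k φ (h⁻¹ • q) z := by
  have h1 := congrFun (cosetFun_slash hφ q h) z
  rw [SL_slash_apply] at h1
  rw [← h1, mul_comm, mul_assoc, ← zpow_add₀ (denom_ne_zero _ z)]
  simp

theorem cosetFun_vadd (hφ : ∀ γ ∈ Gamma0 N, φ ∣[k] γ = φ) (q : Q N) (z : ℍ) :
    cosetFun N k φ q ((1 : ℝ) +ᵥ z) = cosetFun N k φ (ModularGroup.T⁻¹ • q) z := by
  have h1 := cosetFun_apply_smul hφ q ModularGroup.T z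
  rw [UpperHalfPlane.modular_T_smul] at h1
  rw [h1]
  have : denom (ModularGroup.T : SL(2, ℤ)) z = 1 := by
    simp [denom, ModularGroup.T]
  rw [this, one_zpow, one_mul]

theorem IsMF.cosetFun_mdiff (hφ : IsMF N k φ) (q : Q N) : MDiff (cosetFun N k φ q) := by
  unfold cosetFun
  exact hφ.holo.slash k _

theorem IsMF.cosetFun_bdd (hφ : IsMF N k φ) (q : Q N) :
    IsBoundedAtImInfty (cosetFun N k φ q) := hφ.bdd _

theorem IsCF.cosetFun_mdiff (hφ : IsCF N k φ) (q : Q N) : MDiff (cosetFun N k φ q) := by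
  unfold cosetFun
  exact hφ.holo.slash k _

theorem IsCF.cosetFun_zero (hφ : IsCF N k φ) (q : Q N) :
    IsZeroAtImInfty (cosetFun N k φ q) := hφ.zero _

theorem isMF_of_cosetFun (h1 : MDiff φ) (h2 : ∀ γ ∈ Gamma0 N, φ ∣[k] γ = φ)
    (h3 : ∀ q : Q N, IsBoundedAtImInfty (cosetFun N k φ q)) : IsMF N k φ where
  holo := h1
  inv := h2
  bdd g := by
    have := h3 ((g⁻¹ : SL(2, ℤ)) : Q N)
    rwa [cosetFun_mk h2, inv_inv] at this

theorem isCF_of_cosetFun (h1 : MDiff φ) (h2 : ∀ γ ∈ Gamma0 N, φ ∣[k] γ = φ)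
    (h3 : ∀ q : Q N, IsZeroAtImInfty (cosetFun N k φ q)) : IsCF N k φ where
  holo := h1
  inv := h2
  zero g := by
    have := h3 ((g⁻¹ : SL(2, ℤ)) : Q N)
    rwa [cosetFun_mk h2, inv_inv] at this

theorem IsCF.isMF (hφ : IsCF N k φ) : IsMF N k φ where
  holo := hφ.holo
  inv := hφ.inv
  bdd g := (hφ.zero g).isBoundedAtImInfty

/-- the coset function of the coset function: `cosetFun` of a form at `q`, slashed, etc. -/
theorem cosetFun_eq_slash_out (q : Q N) : cosetFun N k φ q = φ ∣[k] (Quotient.out q)⁻¹ := rfl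

end Fermat.Agent.H19
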