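/-
P-DIM (S20): final assembly, core part.  The dimension formula is derived from
the existence of a free generating system with invertible fundamental matrix,
the duality statement and the behaviour at infinity.
-/
import Fermat.Agent.H19.Coset
import Fermat.Agent.H7.DimBridge
import Fermat.Agent.H42.FixedPoints
import Fermat.Agent.H57.Gamma0Index
import Fermat.Agent.H73.CuspOrbits
import Fermat.Agent.H79.EllipticPoints
import Fermat.Agent.H79.GenusCount
import Fermat.Prelude.Def_ModularCurve_GenusNumerics

set_option autoImplicit false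

namespace Fermat.Agent.H19

open Fermat.Agent.H7
open UpperHalfPlane ModularForm CongruenceSubgroup Filter Topology
open scoped MatrixGroups Manifold

/-- The dimension formula, assuming a free generating system indexed by the cosets with
everywhere invertible fundamental matrix, the weight bookkeeping and the rank of `S₂`. -/
theorem dim_formula_core (N : ℕ) [NeZero N] {k : Q N → ℤ} {f : Q N → ℍ → ℂ}
    (hG : IsGens N (Q N) k f)
    (hdet : ∀ z : ℍ, (Phi N k f z).det ≠ 0)
    (hsum : ∑ j, k j = 6 * ((Nat.card (Q N) : ℤ) -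
      Nat.card (MulAction.orbitRel.Quotient (Subgroup.zpowers ModularGroup.T) (Q N))))
    (hle : ∀ j, k j ≤ 10)
    (heven : ∀ j, Even (k j))
    (h0 : (Finset.univ.filter fun j => k j = 0).card = 1)
    (hrank : Module.finrank ℂ (CFsub N 2) = (Finset.univ.filter fun j => k j = 10).card) :
    (Module.finrank ℂ (CuspForm (CongruenceSubgroup.Gamma0 N) 2) : ℚ)
      = ModularCurve.genusFormula N := by
  rw [finrank_cuspForm_eq]
  obtain ⟨zS, hzS, hdS⟩ := Fermat.Agent.H79.exists_fixed_S
  obtain ⟨zT, hzT, hdT⟩ := Fermat.Agent.H79.exists_fixed_ST'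
  have hi := Fermat.Agent.H79.sum_eigenvalues_eq_card_fixed N hG.isMF ModularGroup.S zS hzS
    (hdet zS)
  have hρ := Fermat.Agent.H79.sum_eigenvalues_eq_card_fixed N hG.isMF
    (ModularGroup.S * ModularGroup.T) zT hzT (hdet zT)
  rw [hdS _ rfl, Fermat.Agent.H42.card_fixed_S] at hi
  rw [hdT, Fermat.Agent.H42.card_fixed_ST] at hρ
  rw [Fermat.Agent.H73.card_orbits_T] at hsum
  have hμ : Nat.card (Q N) = ModularCurve.dedekindPsi N := Fermat.Agent.H57.index_Gamma0 N
  rw [hμ] at hsum
  have hcard : Fintype.card (Q N) = ModularCurve.dedekindPsi N := by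
    rw [← hμ, Nat.card_eq_fintype_card]
  rw [hrank, ModularCurve.genusFormula]
  exact Fermat.Agent.H79.genus_count k _ _ _ _ (fun j => ⟨hG.nonneg j, hle j, heven j⟩)
    h0 hcard hsum hi hρ

end Fermat.Agent.H19
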