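/-
P-DIM (S20): final assembly.  `dim S₂(Γ₀(N)) = genusFormula N`.
-/
import Fermat.Agent.H19.AssemblyCore
import Fermat.Agent.H2.DimNondegInfty
import Fermat.Agent.H10.DimVDM
import Fermat.Agent.H18.SeparatingForm
import Fermat.Agent.H34.DetPhi
import Fermat.Agent.H51.GensWeights
import Fermat.Agent.H68.DimDualFinal
import Fermat.Agent.H73.DimExistsGens
import Fermat.Agent.H93.RankMain
import Fermat.Agent.H94.Infinity

set_option autoImplicit false

namespace Fermat.Agent.H19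

open Fermat.Agent.H7
open UpperHalfPlane ModularForm CongruenceSubgroup Filter Topology
open scoped MatrixGroups Manifold

/-- The fundamental matrix in the shape used by the statements at infinity. -/
theorem Phi_eq_of (N : ℕ) (k : Q N → ℤ) (f : Q N → ℍ → ℂ) (z : ℍ) :
    (Matrix.of fun q j => (fun (j q : Q N) => cosetFun N (k j) (f j) q) j q z :
      Matrix (Q N) (Q N) ℂ) = Phi N k f z := rfl

/-- The sum of the weights of a free generating system is `6 (μ - c)`. -/
theorem sum_weights_eq (N : ℕ) [NeZero N] {k : Q N → ℤ} {f : Q N → ℍ → ℂ}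
    (h : IsGens N (Q N) k f) (h₁ : ∃ z₁ : ℍ, (Phi N k f z₁).det ≠ 0) :
    ∑ j, k j = 6 * ((Nat.card (Q N) : ℤ) -
      Nat.card (MulAction.orbitRel.Quotient (Subgroup.zpowers ModularGroup.T) (Q N))) := by
  obtain ⟨c, hc, hpow⟩ := Fermat.Agent.H34.det_Phi_pow N h h₁
  have hnonneg : 0 ≤ ∑ j, k j := Finset.sum_nonneg fun j _ => h.nonneg j
  obtain ⟨K, hK⟩ := Int.eq_ofNat_of_zero_le hnonneg
  have key := Fermat.Agent.H94.inf_two_inv (G := SL(2, ℤ)) (Q := Q N) (g := ModularGroup.T)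
    (Φ := fun j q => cosetFun N (k j) (f j) q)
    (fun j q => (h.isMF j).cosetFun_mdiff q)
    (fun j q => (h.isMF j).cosetFun_bdd q)
    (fun j q z => cosetFun_vadd (h.isMF j).inv q z)
    (fun c hc => Fermat.Agent.H2.nondegenerate_at_infty N h c hc)
    K c hc
    (by
      intro z
      rw [Phi_eq_of, hpow z, hK, zpow_natCast])
  rw [hK, Nat.card_eq_fintype_card (α := Q N)]
  have key' : (K : ℤ) + 6 * (Nat.card (MulAction.orbitRel.Quotient
      (Subgroup.zpowers ModularGroup.T) (Q N)) : ℤ) = 6 * (Fintype.card (Q N) : ℤ) := by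
    exact_mod_cast key
  linarith

/-- The entries of `Δ · Φ⁻¹` vanish at `i∞`. -/
theorem discriminant_mul_inv_zero (N : ℕ) [NeZero N] {k : Q N → ℤ} {f : Q N → ℍ → ℂ}
    (h : IsGens N (Q N) k f) (j q : Q N) :
    IsZeroAtImInfty (fun z => ModularForm.discriminant z * (Phi N k f z)⁻¹ j q) :=
  Fermat.Agent.H94.inf_three (G := SL(2, ℤ)) (Q := Q N) (g := ModularGroup.T⁻¹)
    (Φ := fun j q => cosetFun N (k j) (f j) q)
    (fun j q => (h.isMF j).cosetFun_mdiff q)
    (fun j q => (h.isMF j).cosetFun_bdd q)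
    (fun j q z => cosetFun_vadd (h.isMF j).inv q z)
    (fun c hc => Fermat.Agent.H2.nondegenerate_at_infty N h c hc) j q

/-- **The dimension formula**: `dim S₂(Γ₀(N)) = genusFormula N`. -/
theorem dim_formula (N : ℕ) [NeZero N] :
    (Module.finrank ℂ (CuspForm (CongruenceSubgroup.Gamma0 N) 2) : ℚ)
      = ModularCurve.genusFormula N := by
  obtain ⟨J, k₀, f₀, hG₀⟩ := Fermat.Agent.H73.exists_isGens N
  obtain ⟨e, z₁, hz₁⟩ := Fermat.Agent.H93.isGens_reindex N hG₀
    (Fermat.Agent.H10.exists_independent_point N (Fermat.Agent.H18.exists_separating_form N))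
  have hG : IsGens N (Q N) (k₀ ∘ e) (f₀ ∘ e) := Fermat.Agent.H93.isGens_reindex_equiv hG₀ e
  have h₁ : ∃ z₁ : ℍ, (Phi N (k₀ ∘ e) (f₀ ∘ e) z₁).det ≠ 0 := ⟨z₁, hz₁⟩
  have hdet : ∀ z, (Phi N (k₀ ∘ e) (f₀ ∘ e) z).det ≠ 0 :=
    Fermat.Agent.H34.det_Phi_ne_zero N hG h₁
  have hsum := sum_weights_eq N hG h₁
  have hzero := discriminant_mul_inv_zero N hG
  obtain ⟨g, hgCF, hgne, hspan, huniq⟩ := Fermat.Agent.H68.dual_basis N hG hdet hzero
  have hle : ∀ j, (k₀ ∘ e) j ≤ 10 := Fermat.Agent.H51.weight_le_ten hG g hgCF hgne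
  have hrank := Fermat.Agent.H51.finrank_CFsub_two hle g hgCF hspan huniq
  exact dim_formula_core N hG hdet hsum hle (Fermat.Agent.H51.IsGens.even_weight hG)
    (Fermat.Agent.H51.IsGens.card_weight_zero hG) hrank

end Fermat.Agent.H19
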