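/-
P-ES / ES-A / PD-C (helper19): principal divisors of the function field `FC N` of `X₀(N)` over
`ℂ`: finite support, degree zero, and functions without zeros and poles are constant.

Pure instantiation of the abstract P-GENUS machinery (`H29.fundamentalIdentity`,
`H12.principalDegree`), valid for every function field of one variable over an algebraically
closed field of characteristic zero.
-/
import Fermat.Agent.H23.EsA.Parts
import Fermat.Agent.H29.FundamentalIdentity
import Fermat.Agent.H12.Gen2

set_option autoImplicit false

noncomputable section

open AlgebraicCurve IntermediateField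

namespace Fermat.Agent.H19

section general

variable {K F : Type} [Field K] [Field F] [Algebra K F] [IsAlgClosed K] [CharZero K]

/-- A function field of one variable over an algebraically closed field of characteristic zero
has principal divisors (finite support, degree zero). -/
theorem hasPrincipalDivisors_of_finite (x : F) (hx : Transcendental K x)
    (hfin : FiniteDimensional K⟮x⟯ F) : HasPrincipalDivisors K F := by
  classical
  refine ⟨fun f hf => ?_⟩
  by_cases hfa : IsAlgebraic K f
  · obtain ⟨c, rfl⟩ := Fermat.Agent.H12.exists_algebraMap_eq_of_isAlgebraic hfa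
    refine ⟨0, fun v => ?_, map_zero _⟩
    rw [Fermat.Agent.H12.ord_algebraMap]
    rfl
  · have hft : Transcendental K f := hfa
    have := hfin
    have hfinf : FiniteDimensional K⟮f⟯ F :=
      Fermat.Agent.H12.finiteDimensional_adjoin_simple_of_transcendental x f hft
    have hft' : Transcendental K f⁻¹ := by
      intro h
      apply hfa
      have := h.inv
      rwa [inv_inv] at this
    have hfinf' : FiniteDimensional K⟮f⁻¹⟯ F :=
      Fermat.Agent.H12.finiteDimensional_adjoin_simple_of_transcendental x f⁻¹ hft'
    obtain ⟨-, hfinP, -⟩ := Fermat.Agent.H29.fundamentalIdentity K F f hft hfinf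
    obtain ⟨-, hfinN, -⟩ := Fermat.Agent.H29.fundamentalIdentity K F f⁻¹ hft' hfinf'
    have hsupp : {v : Place K F | v.ord f ≠ 0}.Finite := by
      refine (hfinP.union hfinN).subset fun v hv => ?_
      simp only [Set.mem_ofPred_eq] at hv
      simp only [Set.mem_union, Set.mem_ofPred_eq, Place.ord_inv]
      omega
    let D : Divisor K F := Finsupp.ofSupportFinite (fun v => v.ord f) hsupp
    have hD : ∀ v : Place K F, D v = v.ord f := fun v => rfl
    exact ⟨D, hD,
      Fermat.Agent.H12.principalDegree Fermat.Agent.H29.fundamentalIdentity K F x hx hfin f hf D hD⟩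

/-- In a function field of one variable over an algebraically closed field of characteristic
zero, a nonzero function without zeros and poles is constant. -/
theorem exists_const_of_ord_eq_zero (x : F)
    (hfin : FiniteDimensional K⟮x⟯ F) (f : F)
    (hord : ∀ v : Place K F, v.ord f = 0) : ∃ c : K, f = algebraMap K F c := by
  classical
  by_cases hfa : IsAlgebraic K f
  · obtain ⟨c, hc⟩ := Fermat.Agent.H12.exists_algebraMap_eq_of_isAlgebraic hfa
    exact ⟨c, hc.symm⟩
  · exfalso
    have hft : Transcendental K f := hfa
    have := hfin
    have hfinf : FiniteDimensional K⟮f⟯ F :=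
      Fermat.Agent.H12.finiteDimensional_adjoin_simple_of_transcendental x f hft
    obtain ⟨-, -, hsum⟩ := Fermat.Agent.H29.fundamentalIdentity K F f hft hfinf
    have hempty : {v : Place K F | 0 < v.ord f} = ∅ := by
      ext v
      simp only [Set.mem_ofPred_eq, Set.mem_empty_iff_false, hord v, lt_self_iff_false]
    rw [hempty, finsum_mem_empty] at hsum
    have hpos : 0 < Module.finrank K⟮f⟯ F := Module.finrank_pos
    have : (Module.finrank K⟮f⟯ F : ℤ) = 0 := hsum.symm
    omega

end general

open Fermat.Agent.H23.EsA in
/-- **[PD-C]** from **[DEG-C]**: principal divisors of `FC N` exist and have degree zero, and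
functions without zeros and poles are constant. -/
theorem principalDivisorC_of_degreeC (N : ℕ) [NeZero N]
    (hdeg : Fermat.Agent.H23.EsA.DegreeCStatement N) :
    Fermat.Agent.H23.EsA.PrincipalDivisorCStatement N := by
  obtain ⟨htr, hfin, -⟩ := hdeg
  exact ⟨hasPrincipalDivisors_of_finite _ htr hfin,
    fun f _ hord => exists_const_of_ord_eq_zero _ hfin f hord⟩

end Fermat.Agent.H19

end
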